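import Fermat.Agent.ResidualThree.BianchiForm.NewForm
import Fermat.Agent.WeightOneLift.Defs

/-!
# A form over `ℚ(√-3)` new at all ramified places, of any exponent
-/

noncomputable section

open IsDedekindDomain NumberField
open scoped WithZero

namespace Fermat.Agent.WeightOneLift

open Fermat.Agent.ResidualThree Fermat.Agent.ResidualThree.BianchiForm

local notation "Qbar" => AlgebraicClosure ℚ
local notation "Γℚ" => (AlgebraicClosure ℚ ≃ₐ[ℚ] AlgebraicClosure ℚ)
local notation "χ" => WeierstrassCurve.modThreeCyclotomicChar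

variable {K : IntermediateField ℚ Qbar} [NumberField K] [IsTotallyComplex K]

/-- A form over `ℚ(√-3)` attached to `ρ|K`, of any level, gives a prepared form. -/
theorem exists_preparedForm {ρ : Γℚ →* GL (Fin 2) (ZMod 3)} (hρ : Continuous ρ) {τ : Γℚ}
    (hτ : χ τ ≠ 1)
    (hK : ∀ σ : Γℚ, σ ∈ K.fixingSubgroup ↔ χ σ = 1) (E : EisField K) {U : Level K}
    {φ : Gf K → Hyp K → ℂ} (hφ : IsKFormAnyLevel ρ K U φ) : Nonempty (PreparedForm ρ K) := by
  classical
  obtain ⟨T, a, hT, ha, haT, hψ⟩ :=
    exists_eigenData hρ hτ hK E hφ.automorphic hφ.cuspidal hφ.spectral hφ.bounded hφ.good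
  choose M hM using U.exists_cong
  obtain ⟨x, p, hxp⟩ := hφ.nonzero
  obtain ⟨φ', hφ', -, hφ'0⟩ := exists_allNew E T subset_rfl (fun v => max (M v) 1)
    (fun v _ => le_max_right _ _) hψ (fun h => hxp (by simp [h]))
    (fun v _ => (congSubgroup_antitone v (le_max_left _ _)).trans fun j hj x =>
      hφ.automorphic.right x _ fun w => by
        by_cases hw : w = v
        · subst hw; rw [single_apply_same]; exact hM w hj
        · rw [single_apply_ne hw]; exact one_mem _)
    (W := ⊤) (fun _ _ _ _ _ => Submodule.mem_top) Submodule.mem_top T subset_rfl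
  exact ⟨{ T := T, mem_T := hT, m := fun v => max (M v) 1, one_le := fun v _ => le_max_right _ _,
           a := a, abs_le := ha, trace := haT, φ := φ', isEigen := hφ'.1,
           isNew := fun v hv => hφ'.2.2 v hv, nonzero := hφ'0 }⟩

end Fermat.Agent.WeightOneLift
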