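import Fermat.Agent.ResidualThree.BianchiForm.Level

/-!
# The level of a prepared form of any exponents

The product of the rational primes below the ramified places, to a common exponent.
-/

noncomputable section

open IsDedekindDomain NumberField
open scoped WithZero

namespace Fermat.Agent.ResidualThree.BianchiForm

local notation "Qbar" => AlgebraicClosure ℚ
local notation "Γℚ" => (AlgebraicClosure ℚ ≃ₐ[ℚ] AlgebraicClosure ℚ)
local notation "χ" => WeierstrassCurve.modThreeCyclotomicChar

variable {K : IntermediateField ℚ Qbar} [NumberField K] {ρ : Γℚ →* GL (Fin 2) (ZMod 3)}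

namespace PreparedForm

variable (N : PreparedForm ρ K) (E : EisField K)

/-- The rational primes below the ramified places. -/
def levelPrimes : Finset ℕ := N.T.image fun v => (E.exists_prime_mem v).choose

/-- A common exponent, at least `2 m` at every ramified place. -/
def expSum : ℕ := ∑ v ∈ N.T, 2 * N.m v

/-- The level, as a natural number. -/
def levelNat : ℕ := ∏ q ∈ N.levelPrimes E, q ^ N.expSum

/-- A prime of the level is a rational prime below a ramified place. -/
theorem mem_levelPrimes {q : ℕ} (hq : q ∈ N.levelPrimes E) :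
    q.Prime ∧ ∃ v ∈ N.T, (q : 𝓞 K) ∈ v.asIdeal := by
  obtain ⟨v, hv, rfl⟩ := Finset.mem_image.mp hq
  exact ⟨(E.exists_prime_mem v).choose_spec.1, v, hv, (E.exists_prime_mem v).choose_spec.2⟩

/-- The rational prime below a ramified place is one of the level. -/
theorem mem_levelPrimes_of_mem {v : FPlace K} (hv : v ∈ N.T) {p : ℕ} (hp : p.Prime)
    (hpv : (p : 𝓞 K) ∈ v.asIdeal) : p ∈ N.levelPrimes E := by
  refine Finset.mem_image.mpr ⟨v, hv, ?_⟩
  obtain ⟨hq, hqv⟩ := (E.exists_prime_mem v).choose_spec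
  by_contra hne
  obtain ⟨a, b, hab⟩ := Int.isCoprime_iff_nat_coprime.mpr
    (show Nat.Coprime ((E.exists_prime_mem v).choose : ℤ).natAbs (p : ℤ).natAbs by
      simpa using (Nat.coprime_primes hq hp).mpr hne)
  refine v.isPrime.ne_top ((Ideal.eq_top_iff_one _).mpr ?_)
  have e := congrArg (fun z : ℤ => (z : 𝓞 K)) hab
  push_cast at e
  rw [← e]
  exact add_mem (Ideal.mul_mem_left _ _ hqv) (Ideal.mul_mem_left _ _ hpv)

theorem levelNat_pos : 0 < N.levelNat E :=
  Finset.prod_pos fun _ hq => pow_pos (N.mem_levelPrimes E hq).1.pos _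

/-- The level is deep enough at every ramified place. -/
theorem valuation_levelNat_le {v : FPlace K} (hv : v ∈ N.T) :
    v.valuation K (N.levelNat E : K) ≤ WithZero.exp (-((2 * N.m v : ℕ) : ℤ)) := by
  have hle : ∀ n : ℕ, v.valuation K (n : K) ≤ 1 := fun n => by
    rw [← map_natCast (algebraMap (𝓞 K) K)]; exact v.valuation_le_one _
  obtain ⟨q, hq, hqv⟩ := E.exists_prime_mem v
  rw [levelNat, ← Finset.mul_prod_erase _ _ (N.mem_levelPrimes_of_mem E hv hq hqv), Nat.cast_mul,
    map_mul]
  refine (mul_le_of_le_one_right' (hle _)).trans ((valuation_natCast_le_exp hqv).trans ?_)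
  rw [WithZero.exp_le_exp]
  have := Finset.single_le_sum (f := fun w => 2 * N.m w) (fun w _ => Nat.zero_le _) hv
  simp only [expSum]
  omega

/-- The places of the level are those dividing the level integer. -/
theorem mem_T_iff_levelNat (hK : ∀ σ : Γℚ, σ ∈ K.fixingSubgroup ↔ χ σ = 1) {τ : Γℚ} (hτ : χ τ ≠ 1)
    (v : FPlace K) : v ∈ N.T ↔ ((N.levelNat E : ℕ) : 𝓞 K) ∈ v.asIdeal := by
  constructor
  · exact fun hv => N.mem_of_valuation_le hv (N.valuation_levelNat_le E hv)
  · intro h
    rw [levelNat, Nat.cast_prod] at h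
    obtain ⟨q, hq, hqm⟩ := (v.isPrime.prod_mem_iff).mp h
    rw [Nat.cast_pow] at hqm
    have hqv := v.isPrime.mem_of_pow_mem _ hqm
    obtain ⟨hqp, w, hw, hqw⟩ := N.mem_levelPrimes E hq
    by_cases h3 : q = 3
    · subst h3
      have h3v : (3 : 𝓞 K) ∈ v.asIdeal := by exact_mod_cast hqv
      have h3w : (3 : 𝓞 K) ∈ w.asIdeal := by exact_mod_cast hqw
      rwa [eq_of_three_mem E h3v h3w]
    · refine (N.mem_T v).mpr fun hgood => (N.mem_T w).mp hw ?_
      exact (isGoodPlace_iff ρ hK E hτ hqp h3 hqw).mpr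
        ((isGoodPlace_iff ρ hK E hτ hqp h3 hqv).mp hgood)

end PreparedForm

end Fermat.Agent.ResidualThree.BianchiForm
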