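import Fermat.Agent.ResidualThree.BianchiForm.Main
import Fermat.Agent.ResidualThree.ThetaLift.QuadraticDescent
import Fermat.Agent.WeightOneLift.BianchiForm.GenForm
import Fermat.Agent.WeightOneLift.BianchiForm.GenLevel

/-!
# From a form over `ℚ(√-3)` of any level to a form of weight one with exact traces
-/

noncomputable section

open NumberField

namespace Fermat.Agent.WeightOneLift

open Fermat.Agent.ResidualThree Fermat.Agent.ResidualThree.BianchiForm

/-- The step from the form over `K`. -/
theorem weightOneStep : WeightOneStep := by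
  intro ρ hc hs hd K _ hK U φ hφ
  obtain ⟨E⟩ := exists_eisField K hK
  have := E.isTotallyComplex
  obtain ⟨τ, hτ⟩ := exists_chi_ne_one hs hd
  obtain ⟨N⟩ := exists_preparedForm hc hτ hK E hφ
  obtain ⟨d, -⟩ := exists_datum_of_preparedForm hd hK E hτ N (N.mem_T_iff_levelNat E hK hτ)
    (fun _ hv => N.valuation_levelNat_le E hv) (N.levelPrimes E)
    fun _ _ hp _ hpB hpv hv => hpB (N.mem_levelPrimes_of_mem E hv hp hpv)
  have hn := N.levelNat_pos E
  have : NeZero (N.levelNat E) := ⟨hn.ne'⟩
  exact ⟨3 * N.levelNat E, ⟨mul_ne_zero three_ne_zero hn.ne'⟩, dvd_mul_right 3 _,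
    strongWeightOne_of_datum d (period_ne_zero hc hs hd hn d)⟩

end Fermat.Agent.WeightOneLift
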